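/-
S25 (Jacobian), package A8 (Lift): generic commutative algebra for square-zero thickenings.
Author: helper3050.  Mathlib-only, complete proofs.

Contents (namespace `Fermat.Agent.S25.ATLAS.LIFT.H5230.L3050`):
* `bijective_of_mod`: a map of finite projective modules which is bijective modulo an ideal in
  the Jacobson radical is bijective.
* `exists_linearEquiv_of_baseChange`, `exists_linearEquiv_of_isBaseChange`,
  `exists_linearEquiv_of_reduction`: isomorphisms of finite projective modules lift.
* `exists_projective_lift`: finite projective modules lift across a square-zero surjection.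
* `invertible_of_baseChange`, `exists_invertible_lift`, `exists_invertible_reduction`:
  invertible modules lift across a square-zero surjection.
* `IsLocAlong`, `isLocAlong_tensor`, `locAlong_reduction`, `exists_tensor_reduction`:
  localization of modules in the form of the `GluedModule` axioms, and its compatibility with
  reduction modulo an ideal.
-/
import Mathlib

set_option autoImplicit false

namespace Fermat.Agent.S25.ATLAS.LIFT.H5230.L3050

open TensorProduct

universe u v w

section Nakayama

variable {B : Type*} [CommRing B] (J : Ideal B)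
variable {P Q : Type*} [AddCommGroup P] [Module B P] [AddCommGroup Q] [Module B Q]

/-- Surjectivity modulo an ideal in the Jacobson radical lifts. -/
theorem surjective_of_range_sup_smul (hJ : J ≤ Ideal.jacobson ⊥) [Module.Finite B Q]
    (u : P →ₗ[B] Q) (h : (⊤ : Submodule B Q) ≤ LinearMap.range u ⊔ J • (⊤ : Submodule B Q)) :
    Function.Surjective u := by
  rw [← LinearMap.range_eq_top]
  exact top_le_iff.mp
    (Submodule.le_of_le_smul_of_le_jacobson_bot Module.Finite.fg_top hJ h)

/-- Bijectivity modulo an ideal in the Jacobson radical lifts, for a map from a finite module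
to a finite projective module. -/
theorem bijective_of_mod (hJ : J ≤ Ideal.jacobson ⊥) [Module.Finite B P] [Module.Finite B Q]
    [Module.Projective B Q] (u : P →ₗ[B] Q)
    (hs : (⊤ : Submodule B Q) ≤ LinearMap.range u ⊔ J • (⊤ : Submodule B Q))
    (hi : ∀ x, u x ∈ J • (⊤ : Submodule B Q) → x ∈ J • (⊤ : Submodule B P)) :
    Function.Bijective u := by
  have hsurj : Function.Surjective u := surjective_of_range_sup_smul J hJ u hs
  refine ⟨?_, hsurj⟩
  obtain ⟨s, hs⟩ := Module.projective_lifting_property u LinearMap.id hsurj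
  -- the projection onto the kernel
  set pr : P →ₗ[B] P := LinearMap.id - s ∘ₗ u with hpr
  have hpr_ker : ∀ x, u (pr x) = 0 := by
    intro x
    have : u (s (u x)) = u x := by
      have := congrArg (fun φ : Q →ₗ[B] Q => φ (u x)) hs
      simpa using this
    simp [hpr, this]
  have hpr_id : ∀ x, u x = 0 → pr x = x := by
    intro x hx
    simp [hpr, hx]
  have hK : LinearMap.ker u = LinearMap.range pr := by
    ext x
    constructor
    · intro hx
      exact ⟨x, hpr_id x hx⟩
    · rintro ⟨y, rfl⟩
      exact hpr_ker y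
  have hKfg : (LinearMap.ker u).FG := by
    rw [hK, LinearMap.range_eq_map]
    exact Module.Finite.fg_top.map pr
  have hKle : LinearMap.ker u ≤ J • LinearMap.ker u := by
    intro x hx
    have hx0 : u x = 0 := hx
    have h1 : x ∈ J • (⊤ : Submodule B P) := hi x (by rw [hx0]; exact Submodule.zero_mem _)
    have h2 : pr x ∈ Submodule.map pr (J • (⊤ : Submodule B P)) := Submodule.mem_map_of_mem h1
    rw [Submodule.map_smul'', Submodule.map_top, ← hK, hpr_id x hx0] at h2
    exact h2
  have hbot := Submodule.eq_bot_of_le_smul_of_le_jacobson_bot J _ hKfg hKle hJ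
  exact LinearMap.ker_eq_bot.mp hbot

end Nakayama

section BaseChange

variable {B : Type*} [CommRing B] {A : Type*} [CommRing A] [Algebra B A]
variable {P Q : Type*} [AddCommGroup P] [Module B P] [AddCommGroup Q] [Module B Q]

/-- For a surjective `B → A` with kernel `J`, `1 ⊗ x = 0` in `A ⊗[B] P` iff `x ∈ J P`. -/
theorem one_tmul_eq_zero_iff (hA : Function.Surjective (algebraMap B A)) (x : P) :
    (1 : A) ⊗ₜ[B] x = 0 ↔ x ∈ RingHom.ker (algebraMap B A) • (⊤ : Submodule B P) := by
  have hA' : Function.Surjective (Algebra.ofId B A) := hA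
  let e₀ : (B ⧸ RingHom.ker (Algebra.ofId B A)) ≃ₐ[B] A :=
    Ideal.quotientKerAlgEquivOfSurjective hA'
  let e : A ⊗[B] P ≃ₗ[B] P ⧸ (RingHom.ker (Algebra.ofId B A)) • (⊤ : Submodule B P) :=
    (TensorProduct.congr e₀.symm.toLinearEquiv (LinearEquiv.refl B P)) ≪≫ₗ
      quotTensorEquivQuotSMul P _
  have he : e ((1 : A) ⊗ₜ[B] x) = Submodule.Quotient.mk x := by
    have h1 : e₀.symm (1 : A) = Ideal.Quotient.mk _ (1 : B) := by
      rw [map_one, map_one]
    simp only [e, LinearEquiv.trans_apply, TensorProduct.congr_tmul, AlgEquiv.toLinearEquiv_apply,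
      LinearEquiv.refl_apply, h1, quotTensorEquivQuotSMul_mk_tmul, one_smul]
  rw [← e.map_eq_zero_iff, he, Submodule.Quotient.mk_eq_zero]
  rfl

/-- **Lifting isomorphisms.** `B → A` surjective with kernel in the Jacobson radical (e.g.
nilpotent), `P`, `Q` finite projective over `B`.  Every isomorphism `A ⊗ P ≃ A ⊗ Q` lifts to an
isomorphism `P ≃ Q`. -/
theorem exists_linearEquiv_of_baseChange (hA : Function.Surjective (algebraMap B A))
    (hJ : RingHom.ker (algebraMap B A) ≤ Ideal.jacobson ⊥)
    [Module.Finite B P] [Module.Projective B P] [Module.Finite B Q] [Module.Projective B Q]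
    (e' : A ⊗[B] P ≃ₗ[B] A ⊗[B] Q) :
    ∃ e : P ≃ₗ[B] Q, ∀ x, e' ((1 : A) ⊗ₜ[B] x) = (1 : A) ⊗ₜ[B] e x := by
  have hπQ : Function.Surjective (TensorProduct.mk B A Q 1) := TensorProduct.mk_surjective B Q A hA
  have hπP : Function.Surjective (TensorProduct.mk B A P 1) := TensorProduct.mk_surjective B P A hA
  obtain ⟨u, hu⟩ := Module.projective_lifting_property (TensorProduct.mk B A Q 1)
    (e'.toLinearMap ∘ₗ TensorProduct.mk B A P 1) hπQ
  have hu' : ∀ x, (1 : A) ⊗ₜ[B] u x = e' ((1 : A) ⊗ₜ[B] x) := fun x =>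
    congrArg (fun φ : P →ₗ[B] A ⊗[B] Q => φ x) hu
  have hbij : Function.Bijective u := by
    refine bijective_of_mod _ hJ u ?_ ?_
    · intro q _
      obtain ⟨p, hp⟩ := hπP (e'.symm ((1 : A) ⊗ₜ[B] q))
      have hp' : (1 : A) ⊗ₜ[B] p = e'.symm ((1 : A) ⊗ₜ[B] q) := hp
      have h0 : (1 : A) ⊗ₜ[B] (q - u p) = 0 := by
        rw [TensorProduct.tmul_sub, hu', hp', LinearEquiv.apply_symm_apply, sub_self]
      have h1 := (one_tmul_eq_zero_iff hA (q - u p)).mp h0
      have : q = u p + (q - u p) := by abel
      rw [this]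
      exact Submodule.add_mem_sup (LinearMap.mem_range_self u p) h1
    · intro x hx
      have h0 : (1 : A) ⊗ₜ[B] u x = 0 := (one_tmul_eq_zero_iff hA (u x)).mpr hx
      rw [hu'] at h0
      have h1 : (1 : A) ⊗ₜ[B] x = 0 := by
        simpa using congrArg e'.symm h0
      exact (one_tmul_eq_zero_iff hA x).mp h1
  exact ⟨LinearEquiv.ofBijective u hbij, fun x => (hu' x).symm⟩

/-- `exists_linearEquiv_of_baseChange` phrased with `IsBaseChange`. -/
theorem exists_linearEquiv_of_isBaseChange (hA : Function.Surjective (algebraMap B A))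
    (hJ : RingHom.ker (algebraMap B A) ≤ Ideal.jacobson ⊥)
    [Module.Finite B P] [Module.Projective B P] [Module.Finite B Q] [Module.Projective B Q]
    {P' Q' : Type*} [AddCommGroup P'] [Module B P'] [Module A P'] [IsScalarTower B A P']
    [AddCommGroup Q'] [Module B Q'] [Module A Q'] [IsScalarTower B A Q']
    {πP : P →ₗ[B] P'} {πQ : Q →ₗ[B] Q'} (hP : IsBaseChange A πP) (hQ : IsBaseChange A πQ)
    (e' : P' ≃ₗ[B] Q') :
    ∃ e : P ≃ₗ[B] Q, ∀ x, πQ (e x) = e' (πP x) := by
  obtain ⟨e, he⟩ := exists_linearEquiv_of_baseChange hA hJ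
    ((hP.equiv.restrictScalars B ≪≫ₗ e') ≪≫ₗ (hQ.equiv.restrictScalars B).symm)
  refine ⟨e, fun x => ?_⟩
  have h1 := he x
  have h2 : (hQ.equiv.restrictScalars B) ((1 : A) ⊗ₜ[B] e x) = e' (πP x) := by
    rw [← h1]
    simp [IsBaseChange.equiv_tmul]
  rw [← h2]
  simp [IsBaseChange.equiv_tmul]

end BaseChange

section LiftProjective

variable {B : Type u} [CommRing B] {A : Type v} [CommRing A] [Algebra B A]

/-- **Lifting finite projective modules** across a surjection with square-zero kernel. -/
theorem exists_projective_lift (hA : Function.Surjective (algebraMap B A))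
    (hsq : ∀ x ∈ RingHom.ker (algebraMap B A), ∀ y ∈ RingHom.ker (algebraMap B A), x * y = 0)
    (P' : Type w) [AddCommGroup P'] [Module A P'] [Module.Finite A P'] [Module.Projective A P'] :
    ∃ (P : Type u) (_ : AddCommGroup P) (_ : Module B P), Module.Finite B P ∧
      Module.Projective B P ∧ Nonempty (A ⊗[B] P ≃ₗ[A] P') := by
  classical
  obtain ⟨n, f, g, hf, hg, hfg⟩ := Module.Finite.exists_comp_eq_id_of_projective A P'
  have hfg' : ∀ x, f (g x) = x := fun x => congrArg (fun φ : P' →ₗ[A] P' => φ x) hfg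
  -- the idempotent matrix downstairs
  set E' : Matrix (Fin n) (Fin n) A := LinearMap.toMatrix' (g ∘ₗ f) with hE'def
  have hE' : IsIdempotentElem E' := by
    unfold IsIdempotentElem
    rw [hE'def, ← LinearMap.toMatrix'_comp]
    congr 1
    apply LinearMap.ext
    intro x
    simp only [LinearMap.comp_apply, hfg']
  have hE'app : ∀ v : Fin n → A, E'.mulVec v = g (f v) := by
    intro v
    rw [← Matrix.toLin'_apply, hE'def, Matrix.toLin'_toMatrix']
    rfl
  let φ : Matrix (Fin n) (Fin n) B →+* Matrix (Fin n) (Fin n) A := (algebraMap B A).mapMatrix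
  have hker : ∀ M ∈ RingHom.ker φ, IsNilpotent M := by
    intro M hM
    have hM' : ∀ i j, M i j ∈ RingHom.ker (algebraMap B A) := by
      intro i j
      have := congrArg (fun N : Matrix (Fin n) (Fin n) A => N i j) (RingHom.mem_ker.mp hM)
      simpa [φ] using this
    refine ⟨2, ?_⟩
    rw [pow_two]
    ext i j
    rw [Matrix.mul_apply]
    exact Finset.sum_eq_zero fun l _ => hsq _ (hM' i l) _ (hM' l j)
  have hrange : E' ∈ φ.range := by
    choose c hc using hA
    exact ⟨Matrix.of fun i j => c (E' i j), by ext i j; simp [φ, hc]⟩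
  obtain ⟨E, hE, hEE'⟩ := exists_isIdempotentElem_eq_of_ker_isNilpotent φ hker E' hrange hE'
  set T : (Fin n → B) →ₗ[B] (Fin n → B) := Matrix.toLin' E with hTdef
  have hTT : ∀ y, T (T y) = T y := by
    intro y
    have : T ∘ₗ T = T := by rw [hTdef, ← Matrix.toLin'_mul, hE.eq]
    exact congrArg (fun ψ : (Fin n → B) →ₗ[B] (Fin n → B) => ψ y) this
  -- compatibility of `T` with `g ∘ f`
  have hmap : ∀ y : Fin n → B, (fun i => algebraMap B A (T y i)) =
      g (f (fun i => algebraMap B A (y i))) := by
    intro y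
    rw [← hE'app, ← hEE']
    ext i
    rw [hTdef, Matrix.toLin'_apply, RingHom.map_mulVec]
    rfl
  refine ⟨LinearMap.range T, inferInstance, inferInstance, inferInstance, ?_, ?_⟩
  · refine Module.Projective.of_split (LinearMap.range T).subtype T.rangeRestrict ?_
    ext ⟨x, y, rfl⟩ : 2
    simp [hTT]
  · -- the comparison map
    let Φ : A ⊗[B] (LinearMap.range T) →ₗ[A] P' :=
      f ∘ₗ (piScalarRight B A A (Fin n)).toLinearMap ∘ₗ
        LinearMap.baseChange A (LinearMap.range T).subtype
    have hΦ : ∀ x : LinearMap.range T, Φ ((1 : A) ⊗ₜ[B] x) =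
        f (fun i => algebraMap B A ((x : Fin n → B) i)) := by
      intro x
      simp only [Φ, LinearMap.coe_comp, LinearEquiv.coe_coe, Function.comp_apply,
        LinearMap.baseChange_tmul, Submodule.coe_subtype]
      congr 1
      ext i
      simp [Algebra.algebraMap_eq_smul_one]
    have hone : Function.Surjective (TensorProduct.mk B A (LinearMap.range T) 1) :=
      TensorProduct.mk_surjective B _ A hA
    refine ⟨LinearEquiv.ofBijective Φ ⟨?_, ?_⟩⟩
    · rw [← LinearMap.ker_eq_bot, LinearMap.ker_eq_bot']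
      intro z hz
      obtain ⟨x, rfl⟩ := hone z
      change Φ ((1 : A) ⊗ₜ[B] x) = 0 at hz
      change (1 : A) ⊗ₜ[B] x = 0
      rw [hΦ] at hz
      obtain ⟨x, y, rfl⟩ := x
      -- entries of `T y` are in the kernel
      have hz' : (fun i => algebraMap B A (T y i)) = 0 := by
        have h1 := hmap (T y)
        rw [hTT] at h1
        rw [h1]
        have hz2 : f (fun i => algebraMap B A (T y i)) = 0 := hz
        rw [hz2, map_zero]
      have hent : ∀ i, algebraMap B A (T y i) = 0 := fun i => congrFun hz' i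
      -- write `T y = ∑ (T y) i • T e_i`
      have hsum : (⟨T y, y, rfl⟩ : LinearMap.range T) =
          ∑ i, (T y i) • T.rangeRestrict (fun j => if i = j then 1 else 0) := by
        apply Subtype.ext
        rw [AddSubmonoidClass.coe_finsetSum]
        have h3 : ∀ i : Fin n, (((T y i) • T.rangeRestrict (fun j => if i = j then 1 else 0) :
            LinearMap.range T) : Fin n → B) = T y i • T (fun j => if i = j then 1 else 0) :=
          fun i => rfl
        simp only [h3]
        rw [← LinearMap.pi_apply_eq_sum_univ T (T y), hTT]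
      rw [hsum, TensorProduct.tmul_sum]
      refine Finset.sum_eq_zero fun i _ => ?_
      rw [TensorProduct.tmul_smul, TensorProduct.smul_tmul', Algebra.smul_def, mul_one, hent,
        TensorProduct.zero_tmul]
    · intro p'
      choose c hc using hA
      refine ⟨(1 : A) ⊗ₜ[B] (T.rangeRestrict (fun i => c (g p' i))), ?_⟩
      rw [hΦ]
      have h1 := hmap (fun i => c (g p' i))
      simp only [hc] at h1
      have h2 : (fun i => algebraMap B A ((T.rangeRestrict (fun i => c (g p' i)) :
          Fin n → B) i)) = g (f (g p')) := h1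
      rw [h2, hfg', hfg']

end LiftProjective

section LiftInvertible

variable {B : Type u} [CommRing B] {A : Type v} [CommRing A] [Algebra B A]

/-- A square-zero ideal lies in the Jacobson radical. -/
theorem ker_le_jacobson_of_sq_zero
    (hsq : ∀ x ∈ RingHom.ker (algebraMap B A), ∀ y ∈ RingHom.ker (algebraMap B A), x * y = 0) :
    RingHom.ker (algebraMap B A) ≤ Ideal.jacobson ⊥ := by
  intro x hx
  rw [Ideal.jacobson_bot]
  apply nilradical_le_jacobson B
  rw [mem_nilradical]
  exact ⟨2, by rw [pow_two]; exact hsq x hx x hx⟩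

/-- **Invertibility lifts**: a finite projective `B`-module whose base change along a surjection
with square-zero kernel is invertible, is invertible. -/
theorem invertible_of_baseChange (hA : Function.Surjective (algebraMap B A))
    (hsq : ∀ x ∈ RingHom.ker (algebraMap B A), ∀ y ∈ RingHom.ker (algebraMap B A), x * y = 0)
    (P : Type w) [AddCommGroup P] [Module B P] [Module.Finite B P] [Module.Projective B P]
    [Module.Invertible A (A ⊗[B] P)] : Module.Invertible B P := by
  have hJ := ker_le_jacobson_of_sq_zero hsq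
  obtain ⟨Q, _, _, hfin, hproj, ⟨eQ⟩⟩ :=
    exists_projective_lift hA hsq (Module.Dual A (A ⊗[B] P))
  let e' : A ⊗[B] (P ⊗[B] Q) ≃ₗ[A] A ⊗[B] B :=
    AlgebraTensorModule.distribBaseChange B A P Q ≪≫ₗ
      TensorProduct.congr (LinearEquiv.refl A (A ⊗[B] P)) eQ ≪≫ₗ
      TensorProduct.comm A _ _ ≪≫ₗ Module.Invertible.linearEquiv A (A ⊗[B] P) ≪≫ₗ
      (AlgebraTensorModule.rid B A A).symm
  obtain ⟨e, -⟩ := exists_linearEquiv_of_baseChange hA hJ (e'.restrictScalars B)
  exact Module.Invertible.left e

/-- **Lifting invertible modules** across a surjection with square-zero kernel. -/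
theorem exists_invertible_lift (hA : Function.Surjective (algebraMap B A))
    (hsq : ∀ x ∈ RingHom.ker (algebraMap B A), ∀ y ∈ RingHom.ker (algebraMap B A), x * y = 0)
    (P' : Type w) [AddCommGroup P'] [Module A P'] [Module.Invertible A P'] :
    ∃ (P : Type u) (_ : AddCommGroup P) (_ : Module B P), Module.Invertible B P ∧
      Nonempty (A ⊗[B] P ≃ₗ[A] P') := by
  obtain ⟨P, _, _, hfin, hproj, ⟨e⟩⟩ := exists_projective_lift hA hsq P'
  have : Module.Invertible A (A ⊗[B] P) := Module.Invertible.congr e.symm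
  exact ⟨P, inferInstance, inferInstance, invertible_of_baseChange hA hsq P, ⟨e⟩⟩

end LiftInvertible

section Reduction

/-- Lifting an invertible module along a surjective ring homomorphism with square-zero kernel,
in semilinear form: `π : P → P'` is `ψ`-semilinear, surjective, with kernel `(ker ψ) P`. -/
theorem exists_invertible_reduction {B : Type u} {B' : Type v} [CommRing B] [CommRing B']
    (ψ : B →+* B') (hs : Function.Surjective ψ)
    (hsq : ∀ x ∈ RingHom.ker ψ, ∀ y ∈ RingHom.ker ψ, x * y = 0)
    (P' : Type w) [AddCommGroup P'] [Module B' P'] [Module.Invertible B' P'] :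
    ∃ (P : Type u) (_ : AddCommGroup P) (_ : Module B P), Module.Invertible B P ∧
      ∃ π : P →+ P', (∀ (b : B) (x : P), π (b • x) = ψ b • π x) ∧ Function.Surjective π ∧
        ∀ x, π x = 0 → x ∈ RingHom.ker ψ • (⊤ : Submodule B P) := by
  letI : Algebra B B' := ψ.toAlgebra
  have hs' : Function.Surjective (algebraMap B B') := hs
  obtain ⟨P, _, _, hinv, ⟨σ⟩⟩ := exists_invertible_lift (B := B) (A := B') hs' hsq P'
  refine ⟨P, inferInstance, inferInstance, hinv,
    σ.toAddEquiv.toAddMonoidHom.comp (TensorProduct.mk B B' P 1).toAddMonoidHom, ?_, ?_, ?_⟩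
  · intro b x
    change σ ((1 : B') ⊗ₜ[B] (b • x)) = ψ b • σ ((1 : B') ⊗ₜ[B] x)
    rw [TensorProduct.tmul_smul, ← algebraMap_smul B' b ((1 : B') ⊗ₜ[B] x), map_smul]
    rfl
  · intro p'
    obtain ⟨x, hx⟩ := TensorProduct.mk_surjective B P B' hs' (σ.symm p')
    refine ⟨x, ?_⟩
    change σ ((1 : B') ⊗ₜ[B] x) = p'
    have hx' : (1 : B') ⊗ₜ[B] x = σ.symm p' := hx
    rw [hx', LinearEquiv.apply_symm_apply]
  · intro x hx
    have hx' : σ ((1 : B') ⊗ₜ[B] x) = 0 := hx
    have h0 : (1 : B') ⊗ₜ[B] x = 0 := by simpa using congrArg σ.symm hx'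
    exact (one_tmul_eq_zero_iff hs' x).mp h0

/-- **Lifting isomorphisms, semilinear form.**  `P`, `Q` finite projective over `B`, both
reducing onto the same `B'`-module `X` modulo `ker ψ` (in the Jacobson radical): then there is
an isomorphism `P ≃ Q` compatible with the reductions. -/
theorem exists_linearEquiv_of_reduction {B : Type*} {B' : Type*} [CommRing B] [CommRing B']
    (ψ : B →+* B') (hJ : RingHom.ker ψ ≤ Ideal.jacobson ⊥)
    {P : Type*} {Q : Type*} {X : Type*} [AddCommGroup P] [Module B P] [AddCommGroup Q]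
    [Module B Q] [AddCommGroup X] [Module B' X]
    [Module.Finite B P] [Module.Projective B P] [Module.Finite B Q] [Module.Projective B Q]
    (πP : P →+ X) (πQ : Q →+ X) (hP : ∀ (b : B) (x : P), πP (b • x) = ψ b • πP x)
    (hQ : ∀ (b : B) (x : Q), πQ (b • x) = ψ b • πQ x)
    (hPs : Function.Surjective πP) (hQs : Function.Surjective πQ)
    (hPk : ∀ x, πP x = 0 → x ∈ RingHom.ker ψ • (⊤ : Submodule B P))
    (hQk : ∀ x, πQ x = 0 → x ∈ RingHom.ker ψ • (⊤ : Submodule B Q)) :
    ∃ e : P ≃ₗ[B] Q, ∀ x, πQ (e x) = πP x := by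
  letI : Module B X := Module.compHom X ψ
  let πP' : P →ₗ[B] X := { toFun := πP, map_add' := πP.map_add, map_smul' := hP }
  let πQ' : Q →ₗ[B] X := { toFun := πQ, map_add' := πQ.map_add, map_smul' := hQ }
  obtain ⟨u, hu⟩ := Module.projective_lifting_property πQ' πP' hQs
  have hu' : ∀ x, πQ (u x) = πP x := fun x => congrArg (fun φ : P →ₗ[B] X => φ x) hu
  -- `πQ` kills `ker ψ • ⊤`
  have hkill : ∀ y ∈ RingHom.ker ψ • (⊤ : Submodule B Q), πQ y = 0 := by
    intro y hy
    refine Submodule.smul_induction_on hy ?_ ?_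
    · intro c hc q _
      rw [hQ, RingHom.mem_ker.mp hc, zero_smul]
    · intro a b ha hb
      rw [map_add, ha, hb, add_zero]
  have hbij : Function.Bijective u := by
    refine bijective_of_mod _ hJ u ?_ ?_
    · intro q _
      obtain ⟨p, hp⟩ := hPs (πQ q)
      have h0 : πQ (q - u p) = 0 := by rw [map_sub, hu', hp, sub_self]
      have : q = u p + (q - u p) := by abel
      rw [this]
      exact Submodule.add_mem_sup (LinearMap.mem_range_self u p) (hQk _ h0)
    · intro x hx
      have h0 := hkill _ hx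
      rw [hu'] at h0
      exact hPk x h0
  exact ⟨LinearEquiv.ofBijective u hbij, hu'⟩

end Reduction

/-- `ι : P → N` exhibits the `C`-module `N` as the localization of the `B`-module `P` along
`r : B →+* C`, where `C = B[1/f]` and `u = 1/f` in `C` (the form of the axioms of
`Fermat.Agent.S25.GluedModule`). -/
structure IsLocAlong {B : Type*} {C : Type*} [CommRing B] [CommRing C] (r : B →+* C) (f : B)
    (u : C) {P : Type*} {N : Type*} [AddCommGroup P] [Module B P] [AddCommGroup N] [Module C N]
    (ι : P →+ N) : Prop where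
  map_smul : ∀ (b : B) (x : P), ι (b • x) = r b • ι x
  surj : ∀ y : N, ∃ (x : P) (m : ℕ), y = u ^ m • ι x
  ker : ∀ x : P, ι x = 0 → ∃ m : ℕ, f ^ m • x = 0

section LocAlong

variable {B : Type*} {C : Type*} [CommRing B] [CommRing C] {r : B →+* C} {f : B} {u : C}

/-- The ring-level localization axioms give `IsLocalization.Away`. -/
theorem isLocalization_away_of_axioms [Algebra B C] (f : B) (u : C)
    (hfu : algebraMap B C f * u = 1)
    (hsurj : ∀ c : C, ∃ (a : B) (n : ℕ), c = algebraMap B C a * u ^ n)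
    (hker : ∀ a : B, algebraMap B C a = 0 → ∃ n : ℕ, f ^ n * a = 0) :
    IsLocalization.Away f C := by
  have hpow : ∀ n : ℕ, algebraMap B C (f ^ n) * u ^ n = 1 := by
    intro n
    rw [map_pow, ← mul_pow, hfu, one_pow]
  refine ⟨?_, ?_, ?_⟩
  · rintro ⟨y, n, rfl⟩
    exact IsUnit.of_mul_eq_one _ (hpow n)
  · intro z
    obtain ⟨a, n, rfl⟩ := hsurj z
    refine ⟨(a, ⟨f ^ n, n, rfl⟩), ?_⟩
    change algebraMap B C a * u ^ n * algebraMap B C (f ^ n) = algebraMap B C a
    rw [mul_assoc, mul_comm (u ^ n), hpow, mul_one]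
  · intro x y hxy
    have h0 : algebraMap B C (x - y) = 0 := by rw [map_sub, hxy, sub_self]
    obtain ⟨n, hn⟩ := hker _ h0
    refine ⟨⟨f ^ n, n, rfl⟩, ?_⟩
    change f ^ n * x = f ^ n * y
    rw [← sub_eq_zero, ← mul_sub, hn]

/-- The tensor product model of the localization of a module. -/
theorem isLocAlong_tensor [Algebra B C] (f : B) (u : C)
    (hfu : algebraMap B C f * u = 1)
    (hsurj : ∀ c : C, ∃ (a : B) (n : ℕ), c = algebraMap B C a * u ^ n)
    (hker : ∀ a : B, algebraMap B C a = 0 → ∃ n : ℕ, f ^ n * a = 0)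
    (P : Type*) [AddCommGroup P] [Module B P] :
    IsLocAlong (algebraMap B C) f u (TensorProduct.mk B C P 1).toAddMonoidHom := by
  have : IsLocalization (Submonoid.powers f) C := isLocalization_away_of_axioms f u hfu hsurj hker
  have : IsLocalizedModule (Submonoid.powers f) (TensorProduct.mk B C P 1) :=
    (isLocalizedModule_iff_isBaseChange (Submonoid.powers f) C _).mpr
      (TensorProduct.isBaseChange B P C)
  have hpow : ∀ n : ℕ, u ^ n * algebraMap B C (f ^ n) = 1 := by
    intro n
    rw [map_pow, ← mul_pow, mul_comm, hfu, one_pow]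
  refine ⟨?_, ?_, ?_⟩
  · intro b x
    change (1 : C) ⊗ₜ[B] (b • x) = algebraMap B C b • ((1 : C) ⊗ₜ[B] x)
    rw [TensorProduct.tmul_smul, algebraMap_smul]
  · intro y
    obtain ⟨⟨x, ⟨s, n, rfl⟩⟩, hx⟩ := IsLocalizedModule.surj (Submonoid.powers f)
      (TensorProduct.mk B C P 1) y
    refine ⟨x, n, ?_⟩
    have hx' : (f ^ n) • y = (1 : C) ⊗ₜ[B] x := hx
    change y = u ^ n • ((1 : C) ⊗ₜ[B] x)
    rw [← hx', ← algebraMap_smul C (f ^ n) y, smul_smul, hpow, one_smul]
  · intro x hx
    have hx' : TensorProduct.mk B C P 1 x = TensorProduct.mk B C P 1 0 := by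
      rw [map_zero]; exact hx
    obtain ⟨⟨c, n, rfl⟩, hc⟩ := IsLocalizedModule.exists_of_eq (S := Submonoid.powers f) hx'
    refine ⟨n, ?_⟩
    have hc' : (f ^ n) • x = (f ^ n) • (0 : P) := hc
    rw [hc', smul_zero]

end LocAlong

section Thickening

variable {B : Type*} {C : Type*} [CommRing B] [CommRing C] {r : B →+* C} {f : B} {u : C}
variable {B' : Type*} {C' : Type*} [CommRing B'] [CommRing C'] {r' : B' →+* C'} {f' : B'} {u' : C'}
variable {P : Type*} {N : Type*} [AddCommGroup P] [Module B P] [AddCommGroup N] [Module C N]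
variable {P' : Type*} {N' : Type*} [AddCommGroup P'] [Module B' P'] [AddCommGroup N'] [Module C' N']

/-- Compatibility of localization with reduction: if `π : P → P'` is a reduction modulo
`ker ψ` then the induced map on localizations `πN : N → N'` is a reduction modulo `ker ψC`. -/
theorem locAlong_reduction {ι : P →+ N} {ι' : P' →+ N'}
    (hι : IsLocAlong r f u ι) (hfu : r f * u = 1)
    (hι' : IsLocAlong r' f' u' ι') (hfu' : r' f' * u' = 1)
    (ψ : B →+* B') (ψC : C →+* C') (hψ : ∀ b, ψC (r b) = r' (ψ b)) (hψf : ψ f = f')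
    (π : P →+ P') (hπ : ∀ (b : B) (x : P), π (b • x) = ψ b • π x) (hπs : Function.Surjective π)
    (hπk : ∀ x, π x = 0 → x ∈ RingHom.ker ψ • (⊤ : Submodule B P))
    (πN : N →+ N') (hπN : ∀ (c : C) (z : N), πN (c • z) = ψC c • πN z)
    (hπι : ∀ x, πN (ι x) = ι' (π x)) :
    Function.Surjective πN ∧ ∀ z, πN z = 0 → z ∈ RingHom.ker ψC • (⊤ : Submodule C N) := by
  -- `ψC u = u'`
  have hu : ψC u = u' := by
    have h1 : r' f' * ψC u = 1 := by rw [← hψf, ← hψ, ← map_mul, hfu, map_one]
    calc ψC u = ψC u * (r' f' * u') := by rw [hfu', mul_one]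
      _ = (r' f' * ψC u) * u' := by ring
      _ = u' := by rw [h1, one_mul]
  have huf : ∀ m : ℕ, u ^ m * r f ^ m = 1 := by
    intro m; rw [← mul_pow, mul_comm, hfu, one_pow]
  have huf' : ∀ m : ℕ, r' f' ^ m * u' ^ m = 1 := by
    intro m; rw [← mul_pow, hfu', one_pow]
  constructor
  · intro y'
    obtain ⟨x', m, rfl⟩ := hι'.surj y'
    obtain ⟨x, rfl⟩ := hπs x'
    refine ⟨u ^ m • ι x, ?_⟩
    rw [hπN, map_pow, hu, hπι]
  · intro z hz
    obtain ⟨x, m, rfl⟩ := hι.surj z
    rw [hπN, map_pow, hu, hπι] at hz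
    have h1 : ι' (π x) = 0 := by
      have := congrArg (fun t => r' f' ^ m • t) hz
      simpa [smul_smul, huf'] using this
    obtain ⟨l, hl⟩ := hι'.ker _ h1
    have h2 : π (f ^ l • x) = 0 := by rw [hπ, map_pow, hψf, hl]
    have h3 := hπk _ h2
    -- `ι` maps `ker ψ • ⊤` into `ker ψC • ⊤`
    have h4 : ∀ y ∈ RingHom.ker ψ • (⊤ : Submodule B P),
        ι y ∈ RingHom.ker ψC • (⊤ : Submodule C N) := by
      intro y hy
      refine Submodule.smul_induction_on hy ?_ ?_
      · intro c hc p _
        rw [hι.map_smul]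
        refine Submodule.smul_mem_smul ?_ Submodule.mem_top
        rw [RingHom.mem_ker, hψ, RingHom.mem_ker.mp hc, map_zero]
      · intro a b ha hb
        rw [map_add]
        exact Submodule.add_mem _ ha hb
    have h5 := h4 _ h3
    rw [hι.map_smul, map_pow] at h5
    have h6 : u ^ m • ι x = (u ^ m * u ^ l) • (r f ^ l • ι x) := by
      rw [smul_smul, mul_assoc, huf, mul_one]
    rw [h6]
    exact Submodule.smul_mem _ _ h5

/-- Existence of the induced map on the tensor product model. -/
theorem exists_tensor_reduction [Algebra B C] {ι' : P' →+ N'}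
    (hι' : ∀ (b : B') (x : P'), ι' (b • x) = r' b • ι' x)
    (ψ : B →+* B') (ψC : C →+* C') (hψ : ∀ b, ψC (algebraMap B C b) = r' (ψ b))
    (π : P →+ P') (hπ : ∀ (b : B) (x : P), π (b • x) = ψ b • π x) :
    ∃ πN : C ⊗[B] P →+ N', (∀ (c : C) (z : C ⊗[B] P), πN (c • z) = ψC c • πN z) ∧
      ∀ x, πN ((1 : C) ⊗ₜ[B] x) = ι' (π x) := by
  let F : C →+ P →+ N' :=
    { toFun := fun c =>
        { toFun := fun x => ψC c • ι' (π x)
          map_zero' := by simp
          map_add' := fun x y => by simp [smul_add] }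
      map_zero' := by ext x; simp
      map_add' := fun c d => by ext x; simp [add_smul] }
  have hF : ∀ (b : B) (c : C) (x : P), F (b • c) x = F c (b • x) := by
    intro b c x
    change ψC (b • c) • ι' (π x) = ψC c • ι' (π (b • x))
    rw [hπ, hι', Algebra.smul_def, map_mul, hψ, smul_smul, mul_comm]
  refine ⟨TensorProduct.liftAddHom F hF, ?_, ?_⟩
  · intro c z
    induction z using TensorProduct.induction_on with
    | zero => simp
    | tmul d x =>
      rw [TensorProduct.smul_tmul', TensorProduct.liftAddHom_tmul, TensorProduct.liftAddHom_tmul]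
      change ψC (c • d) • ι' (π x) = ψC c • (ψC d • ι' (π x))
      rw [smul_eq_mul, map_mul, smul_smul]
    | add a b ha hb => rw [smul_add, map_add, map_add, ha, hb, smul_add]
  · intro x
    rw [TensorProduct.liftAddHom_tmul]
    change ψC 1 • ι' (π x) = ι' (π x)
    rw [map_one, one_smul]

end Thickening

end Fermat.Agent.S25.ATLAS.LIFT.H5230.L3050
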