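/-
S25 (Jacobian), package A8 (Lift): line bundles on a two-chart lift across square-zero
thickenings.  Author: helper3050.  Complete proofs.

* `gluedOfCharts`: smart constructor for `GluedModule` from modules over the three chart rings
  and two localization maps (`R`-module structures are induced).
* `exists_gluedModule_lift`: every line bundle over `𝔹'` lifts to a line bundle over `𝔹` when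
  `𝔹 → 𝔹'` is a square-zero thickening of two-charts.
-/
import Mathlib
import Fermat.Agent.S25.Core
import Fermat.Agent.S25.ATLAS.LIFT.H5230.LiftProj

set_option autoImplicit false

namespace Fermat.Agent.S25.ATLAS.LIFT.H5230.L3050

open TensorProduct

universe u

section Glued

variable {R : Type u} [CommRing R]

/-- The two localization statements contained in a glued module. -/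
theorem isLocAlong_ι₁ {𝔹 : TwoChart R} (N : GluedModule 𝔹) :
    IsLocAlong (𝔹.r₁ : 𝔹.B₁ →+* 𝔹.B₁₂) 𝔹.f (𝔹.r₂ 𝔹.g) N.ι₁.toAddMonoidHom :=
  ⟨N.ι₁_smul, N.surj₁, N.ker₁⟩

theorem isLocAlong_ι₂ {𝔹 : TwoChart R} (N : GluedModule 𝔹) :
    IsLocAlong (𝔹.r₂ : 𝔹.B₂ →+* 𝔹.B₁₂) 𝔹.g (𝔹.r₁ 𝔹.f) N.ι₂.toAddMonoidHom :=
  ⟨N.ι₂_smul, N.surj₂, N.ker₂⟩

/-- Smart constructor: a glued module from modules over the three chart rings and two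
localization maps; the `R`-module structures are induced from the chart rings. -/
noncomputable def gluedOfCharts (𝔹 : TwoChart R) (N₁ N₂ N₁₂ : Type u)
    [AddCommGroup N₁] [Module 𝔹.B₁ N₁] [AddCommGroup N₂] [Module 𝔹.B₂ N₂]
    [AddCommGroup N₁₂] [Module 𝔹.B₁₂ N₁₂] (ι₁ : N₁ →+ N₁₂) (ι₂ : N₂ →+ N₁₂)
    (h₁ : IsLocAlong (𝔹.r₁ : 𝔹.B₁ →+* 𝔹.B₁₂) 𝔹.f (𝔹.r₂ 𝔹.g) ι₁)
    (h₂ : IsLocAlong (𝔹.r₂ : 𝔹.B₂ →+* 𝔹.B₁₂) 𝔹.g (𝔹.r₁ 𝔹.f) ι₂) : GluedModule 𝔹 :=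
  letI mR₁ : Module R N₁ := Module.compHom N₁ (algebraMap R 𝔹.B₁)
  letI mR₂ : Module R N₂ := Module.compHom N₂ (algebraMap R 𝔹.B₂)
  letI mR₁₂ : Module R N₁₂ := Module.compHom N₁₂ (algebraMap R 𝔹.B₁₂)
  { N₁ := N₁
    N₂ := N₂
    N₁₂ := N₁₂
    modR₁ := mR₁
    modR₂ := mR₂
    modR₁₂ := mR₁₂
    tower₁ := ⟨fun r b x => by
      change (r • b) • x = algebraMap R 𝔹.B₁ r • (b • x)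
      rw [Algebra.smul_def, mul_smul]⟩
    tower₂ := ⟨fun r b x => by
      change (r • b) • x = algebraMap R 𝔹.B₂ r • (b • x)
      rw [Algebra.smul_def, mul_smul]⟩
    tower₁₂ := ⟨fun r b x => by
      change (r • b) • x = algebraMap R 𝔹.B₁₂ r • (b • x)
      rw [Algebra.smul_def, mul_smul]⟩
    ι₁ :=
      { toFun := ι₁
        map_add' := ι₁.map_add
        map_smul' := fun r x => by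
          change ι₁ (algebraMap R 𝔹.B₁ r • x) = algebraMap R 𝔹.B₁₂ r • ι₁ x
          rw [h₁.map_smul]
          congr 1
          exact 𝔹.r₁.commutes r }
    ι₂ :=
      { toFun := ι₂
        map_add' := ι₂.map_add
        map_smul' := fun r x => by
          change ι₂ (algebraMap R 𝔹.B₂ r • x) = algebraMap R 𝔹.B₁₂ r • ι₂ x
          rw [h₂.map_smul]
          congr 1
          exact 𝔹.r₂.commutes r }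
    ι₁_smul := h₁.map_smul
    ι₂_smul := h₂.map_smul
    surj₁ := h₁.surj
    ker₁ := h₁.ker
    surj₂ := h₂.surj
    ker₂ := h₂.ker }

/-- **(Lift) for glued modules.**  Let `𝔹 → 𝔹'` be a morphism of two-charts which is
surjective with square-zero kernels on the two charts and surjective with kernel in the Jacobson
radical on the overlap.  Every line bundle `N'` over `𝔹'` lifts to a line bundle `N` over `𝔹`: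
there are semilinear reductions `π₁, π₂, π₁₂`, compatible with the gluing maps, each surjective
with kernel `(ker ψ) • ⊤`. -/
theorem exists_gluedModule_lift {R' : Type u} [CommRing R'] {𝔹 : TwoChart R} {𝔹' : TwoChart R'}
    (ψ₁ : 𝔹.B₁ →+* 𝔹'.B₁) (ψ₂ : 𝔹.B₂ →+* 𝔹'.B₂) (ψ₁₂ : 𝔹.B₁₂ →+* 𝔹'.B₁₂)
    (h₁ : ∀ b, ψ₁₂ (𝔹.r₁ b) = 𝔹'.r₁ (ψ₁ b)) (h₂ : ∀ b, ψ₁₂ (𝔹.r₂ b) = 𝔹'.r₂ (ψ₂ b))
    (hf : ψ₁ 𝔹.f = 𝔹'.f) (hg : ψ₂ 𝔹.g = 𝔹'.g)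
    (hs₁ : Function.Surjective ψ₁) (hs₂ : Function.Surjective ψ₂)
    (hsq₁ : ∀ x ∈ RingHom.ker ψ₁, ∀ y ∈ RingHom.ker ψ₁, x * y = 0)
    (hsq₂ : ∀ x ∈ RingHom.ker ψ₂, ∀ y ∈ RingHom.ker ψ₂, x * y = 0)
    (hJ₁₂ : RingHom.ker ψ₁₂ ≤ Ideal.jacobson ⊥)
    (N' : GluedModule 𝔹') (hN' : N'.IsLineBundle) :
    ∃ N : GluedModule 𝔹, N.IsLineBundle ∧
      ∃ (π₁ : N.N₁ →+ N'.N₁) (π₂ : N.N₂ →+ N'.N₂) (π₁₂ : N.N₁₂ →+ N'.N₁₂),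
        (∀ (b : 𝔹.B₁) (x : N.N₁), π₁ (b • x) = ψ₁ b • π₁ x) ∧
        (∀ (b : 𝔹.B₂) (x : N.N₂), π₂ (b • x) = ψ₂ b • π₂ x) ∧
        (∀ (b : 𝔹.B₁₂) (x : N.N₁₂), π₁₂ (b • x) = ψ₁₂ b • π₁₂ x) ∧
        (∀ x, π₁₂ (N.ι₁ x) = N'.ι₁ (π₁ x)) ∧ (∀ x, π₁₂ (N.ι₂ x) = N'.ι₂ (π₂ x)) ∧
        Function.Surjective π₁ ∧ Function.Surjective π₂ ∧ Function.Surjective π₁₂ ∧
        (∀ x, π₁ x = 0 → x ∈ RingHom.ker ψ₁ • (⊤ : Submodule 𝔹.B₁ N.N₁)) ∧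
        (∀ x, π₂ x = 0 → x ∈ RingHom.ker ψ₂ • (⊤ : Submodule 𝔹.B₂ N.N₂)) ∧
        (∀ x, π₁₂ x = 0 → x ∈ RingHom.ker ψ₁₂ • (⊤ : Submodule 𝔹.B₁₂ N.N₁₂)) := by
  have := hN'.inv₁
  have := hN'.inv₂
  -- lift the two chart modules
  obtain ⟨P₁, _, _, hinv₁, π₁, hπ₁, hπ₁s, hπ₁k⟩ := exists_invertible_reduction ψ₁ hs₁ hsq₁ N'.N₁
  obtain ⟨P₂, _, _, hinv₂, π₂, hπ₂, hπ₂s, hπ₂k⟩ := exists_invertible_reduction ψ₂ hs₂ hsq₂ N'.N₂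
  -- the two localizations upstairs
  letI alg₁ : Algebra 𝔹.B₁ 𝔹.B₁₂ := (𝔹.r₁ : 𝔹.B₁ →+* 𝔹.B₁₂).toAlgebra
  letI alg₂ : Algebra 𝔹.B₂ 𝔹.B₁₂ := (𝔹.r₂ : 𝔹.B₂ →+* 𝔹.B₁₂).toAlgebra
  have hgf : 𝔹.r₂ 𝔹.g * 𝔹.r₁ 𝔹.f = 1 := by rw [mul_comm]; exact 𝔹.fg
  have hgf' : 𝔹'.r₂ 𝔹'.g * 𝔹'.r₁ 𝔹'.f = 1 := by rw [mul_comm]; exact 𝔹'.fg
  have hloc₁ : IsLocAlong (𝔹.r₁ : 𝔹.B₁ →+* 𝔹.B₁₂) 𝔹.f (𝔹.r₂ 𝔹.g)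
      (TensorProduct.mk 𝔹.B₁ 𝔹.B₁₂ P₁ 1).toAddMonoidHom :=
    isLocAlong_tensor 𝔹.f (𝔹.r₂ 𝔹.g) 𝔹.fg 𝔹.surj₁ 𝔹.ker₁ P₁
  have hloc₂ : IsLocAlong (𝔹.r₂ : 𝔹.B₂ →+* 𝔹.B₁₂) 𝔹.g (𝔹.r₁ 𝔹.f)
      (TensorProduct.mk 𝔹.B₂ 𝔹.B₁₂ P₂ 1).toAddMonoidHom :=
    isLocAlong_tensor 𝔹.g (𝔹.r₁ 𝔹.f) hgf 𝔹.surj₂ 𝔹.ker₂ P₂
  -- the reductions of the two localizations
  obtain ⟨π₁₂, hπ₁₂, hπ₁₂ι⟩ := exists_tensor_reduction (B := 𝔹.B₁) (C := 𝔹.B₁₂) (P := P₁)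
    (r' := (𝔹'.r₁ : 𝔹'.B₁ →+* 𝔹'.B₁₂)) (ι' := N'.ι₁.toAddMonoidHom) N'.ι₁_smul ψ₁ ψ₁₂ h₁ π₁ hπ₁
  obtain ⟨ρ₂, hρ₂, hρ₂ι⟩ := exists_tensor_reduction (B := 𝔹.B₂) (C := 𝔹.B₁₂) (P := P₂)
    (r' := (𝔹'.r₂ : 𝔹'.B₂ →+* 𝔹'.B₁₂)) (ι' := N'.ι₂.toAddMonoidHom) N'.ι₂_smul ψ₂ ψ₁₂ h₂ π₂ hπ₂
  obtain ⟨hπ₁₂s, hπ₁₂k⟩ := locAlong_reduction hloc₁ 𝔹.fg (isLocAlong_ι₁ N') 𝔹'.fg ψ₁ ψ₁₂ h₁ hf
    π₁ hπ₁ hπ₁s hπ₁k π₁₂ hπ₁₂ hπ₁₂ι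
  obtain ⟨hρ₂s, hρ₂k⟩ := locAlong_reduction hloc₂ hgf (isLocAlong_ι₂ N') hgf' ψ₂ ψ₁₂ h₂ hg
    π₂ hπ₂ hπ₂s hπ₂k ρ₂ hρ₂ hρ₂ι
  -- lift the gluing
  obtain ⟨e, he⟩ := exists_linearEquiv_of_reduction ψ₁₂ hJ₁₂ ρ₂ π₁₂ hρ₂ hπ₁₂ hρ₂s hπ₁₂s hρ₂k hπ₁₂k
  have hloc₂' : IsLocAlong (𝔹.r₂ : 𝔹.B₂ →+* 𝔹.B₁₂) 𝔹.g (𝔹.r₁ 𝔹.f)
      (e.toAddEquiv.toAddMonoidHom.comp (TensorProduct.mk 𝔹.B₂ 𝔹.B₁₂ P₂ 1).toAddMonoidHom) := by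
    refine ⟨?_, ?_, ?_⟩
    · intro b x
      change e ((TensorProduct.mk 𝔹.B₂ 𝔹.B₁₂ P₂ 1).toAddMonoidHom (b • x)) = _
      rw [hloc₂.map_smul, map_smul]
      rfl
    · intro y
      obtain ⟨x, m, hx⟩ := hloc₂.surj (e.symm y)
      refine ⟨x, m, ?_⟩
      change y = 𝔹.r₁ 𝔹.f ^ m • e ((TensorProduct.mk 𝔹.B₂ 𝔹.B₁₂ P₂ 1).toAddMonoidHom x)
      rw [← map_smul, ← hx, LinearEquiv.apply_symm_apply]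
    · intro x hx
      have hx' : e ((TensorProduct.mk 𝔹.B₂ 𝔹.B₁₂ P₂ 1).toAddMonoidHom x) = 0 := hx
      exact hloc₂.ker x (by simpa using hx')
  refine ⟨gluedOfCharts 𝔹 P₁ P₂ (𝔹.B₁₂ ⊗[𝔹.B₁] P₁) _ _ hloc₁ hloc₂', ⟨hinv₁, hinv₂⟩,
    π₁, π₂, π₁₂, hπ₁, hπ₂, hπ₁₂, hπ₁₂ι, ?_, hπ₁s, hπ₂s, hπ₁₂s, hπ₁k, hπ₂k, hπ₁₂k⟩
  intro x
  exact (he ((1 : 𝔹.B₁₂) ⊗ₜ[𝔹.B₂] (show P₂ from x))).trans (hρ₂ι (show P₂ from x))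

end Glued

end Fermat.Agent.S25.ATLAS.LIFT.H5230.L3050
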