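/-
S25 package ATLAS, sub-package LIFT (helper5230).

(LIFT) in the FROZEN vocabulary: for a square-zero ideal `I` of a `k`-algebra `R`, every rigid
line bundle over `𝒞.chart (R ⧸ I)` is the base change (`IsBC`) of a rigid line bundle over
`𝒞.chart R` (`exists_rigid_lift` = the frozen sub-stub `ATLAS.exists_lift`).

* `existsUnique_of_reduction` : a semilinear surjection with kernel `ker ψ • ⊤` over a surjective
  ring map has the universal property of base change (shape of `BaseChangeData.univ₁/₂`, `Rigid`).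
* `rigid_of_surjective`, `exists_surjective_of_rigid` : `Rigid` ⟺ surjective `ε`-semilinear
  `e : N₁ → R` with kernel `ker ε • N₁`.
* `exists_rigidification_lift` : abstract lifting of rigidifications (Nakayama + projectivity).
* `exists_lineBundle_reduction`, `exists_lineBundle_lift`, `exists_rigid_lift`.

Built on helper3050's `exists_gluedModule_lift` (copied verbatim into `ATLAS/LIFT/H5230/`,
namespace renamed).  No BC stub needed; standard axioms only.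
-/
import Fermat.Agent.S25.AlgDefs
import Fermat.Agent.S25.ATLAS.LIFT.H5230.LiftGlued

set_option autoImplicit false

universe u

namespace Fermat.Agent.S25.ATLAS.LIFT.H5230

open scoped TensorProduct

open GluedModule

section Generic

/-- A semilinear surjection `π : N → N'` over a surjective ring map `ψ : B → B'` whose kernel is
contained in `ker ψ • ⊤` has the universal property of the base change `B' ⊗[B] N`. -/
theorem existsUnique_of_reduction {B B' : Type u} [CommRing B] [CommRing B'] (ψ : B →+* B')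
    (hψ : Function.Surjective ψ)
    {N N' : Type u} [AddCommGroup N] [Module B N] [AddCommGroup N'] [Module B' N']
    (π : N →+ N') (hπ : ∀ (b : B) (x : N), π (b • x) = ψ b • π x) (hπs : Function.Surjective π)
    (hπk : ∀ x, π x = 0 → x ∈ RingHom.ker ψ • (⊤ : Submodule B N))
    (Q : Type u) [AddCommGroup Q] [Module B' Q] (h : N →+ Q)
    (hh : ∀ (b : B) (n : N), h (b • n) = ψ b • h n) :
    ∃! h' : N' →ₗ[B'] Q, ∀ n, h' (π n) = h n := by
  have hker : ∀ x, π x = 0 → h x = 0 := by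
    intro x hx
    refine Submodule.smul_induction_on (hπk x hx) ?_ ?_
    · intro a ha n _
      rw [hh, RingHom.mem_ker.mp ha, zero_smul]
    · intro x y hx hy
      rw [map_add, hx, hy, add_zero]
  have hwd : ∀ x y, π x = π y → h x = h y := by
    intro x y hxy
    have h0 : h (x - y) = 0 := hker _ (by rw [map_sub, hxy, sub_self])
    rwa [map_sub, sub_eq_zero] at h0
  let g : N' → Q := fun y => h (Function.surjInv hπs y)
  have hg : ∀ n, g (π n) = h n := fun n => hwd _ _ (Function.surjInv_eq hπs (π n))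
  refine ⟨{ toFun := g, map_add' := ?_, map_smul' := ?_ }, hg, ?_⟩
  · intro y₁ y₂
    obtain ⟨x₁, rfl⟩ := hπs y₁
    obtain ⟨x₂, rfl⟩ := hπs y₂
    rw [← map_add, hg, hg, hg, map_add]
  · intro b' y
    obtain ⟨b, rfl⟩ := hψ b'
    obtain ⟨x, rfl⟩ := hπs y
    rw [← hπ, hg, hg, hh, RingHom.id_apply]
  · intro h'' hh''
    ext y
    obtain ⟨x, rfl⟩ := hπs y
    exact (hh'' x).trans (hg x).symm

/-- Abstract lifting of rigidifications.  `ε : B → R`, `ε' : B' → R'` retractions-like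
surjections, `(ψ, ψR)` a map between them with `ker ψR` in the Jacobson radical, `N` an
invertible `B`-module reducing onto `N'`; a rigidification of `N'` along `ε'` lifts to a
rigidification of `N` along `ε`. -/
theorem exists_rigidification_lift {B R B' R' : Type u} [CommRing B] [CommRing R] [CommRing B']
    [CommRing R'] (ε : B →+* R) (hε : Function.Surjective ε) (ε' : B' →+* R')
    (ψ : B →+* B') (hψ : Function.Surjective ψ) (ψR : R →+* R') (hψR : Function.Surjective ψR)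
    (hJ : RingHom.ker ψR ≤ Ideal.jacobson ⊥) (hcomm : ∀ b, ψR (ε b) = ε' (ψ b))
    {N N' : Type u} [AddCommGroup N] [Module B N] [Module.Invertible B N] [AddCommGroup N']
    [Module B' N']
    (π : N →+ N') (hπ : ∀ (b : B) (x : N), π (b • x) = ψ b • π x) (hπs : Function.Surjective π)
    (hπk : ∀ x, π x = 0 → x ∈ RingHom.ker ψ • (⊤ : Submodule B N))
    (e' : N' →+ R') (he' : ∀ (b : B') (x : N'), e' (b • x) = ε' b * e' x)
    (he's : Function.Surjective e')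
    (he'k : ∀ x, e' x = 0 → x ∈ RingHom.ker ε' • (⊤ : Submodule B' N')) :
    ∃ e : N →+ R, (∀ (b : B) (x : N), e (b • x) = ε b * e x) ∧ Function.Surjective e ∧
      (∀ x, e x = 0 → x ∈ RingHom.ker ε • (⊤ : Submodule B N)) ∧ ∀ x, ψR (e x) = e' (π x) := by
  let _ : Algebra B R := ε.toAlgebra
  have hA : Function.Surjective (algebraMap B R) := hε
  have htmul : ∀ (b : B) (x : N), (1 : R) ⊗ₜ[B] (b • x) = ε b • ((1 : R) ⊗ₜ[B] x) := by
    intro b x
    rw [← TensorProduct.smul_tmul, TensorProduct.smul_tmul', Algebra.smul_def, mul_one,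
      smul_eq_mul, mul_one]
    rfl
  obtain ⟨πQ, hπQ, hπQ1⟩ := L3050.exists_tensor_reduction (B := B) (C := R) (P := N) (r' := ε')
    (ι' := e') (fun b x => by rw [he', smul_eq_mul]) ψ ψR hcomm π hπ
  have hq : Function.Surjective (TensorProduct.mk B R N 1) := TensorProduct.mk_surjective B N R hA
  have hπQs : Function.Surjective πQ := by
    intro y
    obtain ⟨n', rfl⟩ := he's y
    obtain ⟨n, rfl⟩ := hπs n'
    exact ⟨(1 : R) ⊗ₜ[B] n, hπQ1 n⟩
  have hεker : ∀ a ∈ RingHom.ker ψ, ε a ∈ RingHom.ker ψR := by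
    intro a ha
    rw [RingHom.mem_ker] at ha ⊢
    rw [hcomm, ha, map_zero]
  have key : ∀ y ∈ RingHom.ker ε' • (⊤ : Submodule B' N'), ∀ n : N, π n = y →
      (1 : R) ⊗ₜ[B] n ∈ RingHom.ker ψR • (⊤ : Submodule R (R ⊗[B] N)) := by
    intro y hy
    refine Submodule.smul_induction_on hy ?_ ?_
    · intro c' hc' m' _ n hn
      obtain ⟨c, rfl⟩ := hψ c'
      obtain ⟨m, rfl⟩ := hπs m'
      have h0 : π (n - c • m) = 0 := by rw [map_sub, hπ, hn, sub_self]
      have h3 : (1 : R) ⊗ₜ[B] (n - c • m) ∈ RingHom.ker ψR • (⊤ : Submodule R (R ⊗[B] N)) := by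
        refine Submodule.smul_induction_on (hπk _ h0) ?_ ?_
        · intro a ha x _
          rw [htmul]
          exact Submodule.smul_mem_smul (hεker a ha) Submodule.mem_top
        · intro x y hx hy
          rw [TensorProduct.tmul_add]
          exact Submodule.add_mem _ hx hy
      have h4 : (1 : R) ⊗ₜ[B] (c • m) ∈ RingHom.ker ψR • (⊤ : Submodule R (R ⊗[B] N)) := by
        rw [htmul]
        refine Submodule.smul_mem_smul ?_ Submodule.mem_top
        rw [RingHom.mem_ker, hcomm]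
        exact RingHom.mem_ker.mp hc'
      have h5 : (1 : R) ⊗ₜ[B] n = (1 : R) ⊗ₜ[B] (n - c • m) + (1 : R) ⊗ₜ[B] (c • m) := by
        rw [← TensorProduct.tmul_add, sub_add_cancel]
      rw [h5]
      exact Submodule.add_mem _ h3 h4
    · intro y₁ y₂ h₁ h₂ n hn
      obtain ⟨n₁, rfl⟩ := hπs y₁
      have hn2 : π (n - n₁) = y₂ := by rw [map_sub, hn, add_sub_cancel_left]
      have h6 := Submodule.add_mem _ (h₁ n₁ rfl) (h₂ (n - n₁) hn2)
      rwa [← TensorProduct.tmul_add, add_sub_cancel] at h6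
  have hπQk : ∀ z, πQ z = 0 → z ∈ RingHom.ker ψR • (⊤ : Submodule R (R ⊗[B] N)) := by
    intro z hz
    obtain ⟨n, rfl⟩ := hq z
    have hz' : πQ ((1 : R) ⊗ₜ[B] n) = 0 := hz
    rw [hπQ1] at hz'
    exact key _ (he'k _ hz') n rfl
  have hPk : ∀ x : R, ψR x = 0 → x ∈ RingHom.ker ψR • (⊤ : Submodule R R) := by
    intro x hx
    have h7 : x = x • (1 : R) := by rw [smul_eq_mul, mul_one]
    rw [h7]
    exact Submodule.smul_mem_smul (RingHom.mem_ker.mpr hx) Submodule.mem_top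
  obtain ⟨v, hv⟩ := L3050.exists_linearEquiv_of_reduction ψR hJ (P := R) (Q := R ⊗[B] N) (X := R')
    ψR.toAddMonoidHom πQ (fun b x => by
      change ψR (b * x) = ψR b * ψR x
      rw [map_mul]) hπQ hψR hπQs hPk hπQk
  refine ⟨(v.symm.toLinearMap.toAddMonoidHom).comp (TensorProduct.mk B R N 1).toAddMonoidHom,
    ?_, ?_, ?_, ?_⟩
  · intro b x
    change v.symm ((1 : R) ⊗ₜ[B] (b • x)) = ε b * v.symm ((1 : R) ⊗ₜ[B] x)
    rw [htmul b x, map_smul, smul_eq_mul]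
  · intro r
    obtain ⟨n, hn⟩ := hq (v r)
    refine ⟨n, ?_⟩
    change v.symm (TensorProduct.mk B R N 1 n) = r
    rw [hn, LinearEquiv.symm_apply_apply]
  · intro x hx
    have h8 : v.symm ((1 : R) ⊗ₜ[B] x) = 0 := hx
    have h9 : (1 : R) ⊗ₜ[B] x = 0 := by
      have := congrArg v h8
      rwa [LinearEquiv.apply_symm_apply, map_zero] at this
    exact (L3050.one_tmul_eq_zero_iff hA x).mp h9
  · intro x
    change ψR (v.symm ((1 : R) ⊗ₜ[B] x)) = e' (π x)
    have h10 := hv (v.symm ((1 : R) ⊗ₜ[B] x))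
    rw [LinearEquiv.apply_symm_apply, hπQ1] at h10
    exact h10.symm

end Generic

section Curve

variable {k : Type u} [Field k] (𝒞 : CurveData k)

/-- The rigidifying sections are compatible with base change. -/
theorem epsR_chartHom {R R' : Type u} [CommRing R] [Algebra k R] [CommRing R'] [Algebra k R']
    (φ : R →ₐ[k] R') (b : R ⊗[k] 𝒞.A₁) :
    𝒞.epsR R' ((𝒞.chartHom φ).ψ₁ b) = φ (𝒞.epsR R b) := by
  change Algebra.TensorProduct.lift (AlgHom.id R' R') ((Algebra.ofId k R').comp 𝒞.ε)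
      (fun _ _ => Commute.all _ _) (Algebra.TensorProduct.map φ (AlgHom.id k 𝒞.A₁) b) =
    φ (Algebra.TensorProduct.lift (AlgHom.id R R) ((Algebra.ofId k R).comp 𝒞.ε)
      (fun _ _ => Commute.all _ _) b)
  induction b using TensorProduct.induction_on with
  | zero => simp only [map_zero]
  | tmul r a =>
    simp only [Algebra.TensorProduct.map_tmul, Algebra.TensorProduct.lift_tmul,
      AlgHom.id_apply, AlgHom.comp_apply, map_mul, Algebra.ofId_apply, AlgHom.commutes]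
  | add x y hx hy => simp only [map_add, hx, hy]

theorem epsR_surjective (R : Type u) [CommRing R] [Algebra k R] :
    Function.Surjective (𝒞.epsR R : (𝒞.chart R).B₁ →+* R) :=
  fun r => ⟨algebraMap R _ r, (𝒞.epsR R).commutes r⟩

/-- A surjective `ε`-semilinear map `N₁ → R` with kernel `ker ε • N₁` is a rigidification. -/
theorem rigid_of_surjective {R : Type u} [CommRing R] [Algebra k R]
    (N : GluedModule (𝒞.chart R)) (e : N.N₁ →+ R)
    (he : ∀ (b : (𝒞.chart R).B₁) (n : N.N₁), e (b • n) = 𝒞.epsR R b * e n)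
    (hes : Function.Surjective e)
    (hek : ∀ n, e n = 0 → n ∈ RingHom.ker (𝒞.epsR R : (𝒞.chart R).B₁ →+* R) •
      (⊤ : Submodule (𝒞.chart R).B₁ N.N₁)) :
    Rigid 𝒞 N := by
  let eL : N.N₁ →ₗ[R] R :=
    { toFun := e
      map_add' := e.map_add
      map_smul' := fun r n => by
        rw [← algebraMap_smul (𝒞.chart R).B₁ r n, he, AlgHom.commutes]
        rfl }
  refine ⟨eL, he, ?_⟩
  intro Q _ _ h hh
  exact existsUnique_of_reduction (𝒞.epsR R : (𝒞.chart R).B₁ →+* R) (epsR_surjective 𝒞 R) e he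
    hes hek Q h.toAddMonoidHom hh

/-- A rigidification is surjective with kernel `ker ε • N₁`. -/
theorem exists_surjective_of_rigid {R : Type u} [CommRing R] [Algebra k R]
    {N : GluedModule (𝒞.chart R)} (hN : Rigid 𝒞 N) :
    ∃ e : N.N₁ →+ R, (∀ (b : (𝒞.chart R).B₁) (n : N.N₁), e (b • n) = 𝒞.epsR R b * e n) ∧
      Function.Surjective e ∧
      ∀ n, e n = 0 → n ∈ RingHom.ker (𝒞.epsR R : (𝒞.chart R).B₁ →+* R) •
        (⊤ : Submodule (𝒞.chart R).B₁ N.N₁) := by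
  obtain ⟨e, he, hu⟩ := hN
  refine ⟨e.toAddMonoidHom, he, ?_, ?_⟩
  · have h1 := hu (R ⧸ LinearMap.range e) 0 (fun b n => by simp)
    have h2 : (LinearMap.range e).mkQ = (0 : R →ₗ[R] R ⧸ LinearMap.range e) :=
      h1.unique
        (fun n => by
          rw [Submodule.mkQ_apply, LinearMap.zero_apply]
          exact (Submodule.Quotient.mk_eq_zero _).mpr (LinearMap.mem_range_self e n))
        (fun n => by simp)
    have h3 : LinearMap.range e = ⊤ := by
      rw [← Submodule.ker_mkQ (LinearMap.range e), h2, LinearMap.ker_zero]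
    exact LinearMap.range_eq_top.mp h3
  · set S : Submodule (𝒞.chart R).B₁ N.N₁ :=
      RingHom.ker (𝒞.epsR R : (𝒞.chart R).B₁ →+* R) • (⊤ : Submodule (𝒞.chart R).B₁ N.N₁) with hS
    let q : N.N₁ →ₗ[R] N.N₁ ⧸ S := S.mkQ.restrictScalars R
    have hq : ∀ (b : (𝒞.chart R).B₁) (n : N.N₁), q (b • n) = 𝒞.epsR R b • q n := by
      intro b n
      change (Submodule.Quotient.mk (b • n) : N.N₁ ⧸ S) = 𝒞.epsR R b • Submodule.Quotient.mk n
      rw [← Submodule.Quotient.mk_smul, Submodule.Quotient.eq,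
        ← algebraMap_smul (𝒞.chart R).B₁ (𝒞.epsR R b) n, ← sub_smul]
      refine Submodule.smul_mem_smul ?_ Submodule.mem_top
      rw [RingHom.mem_ker, map_sub]
      change 𝒞.epsR R b - 𝒞.epsR R (algebraMap R _ (𝒞.epsR R b)) = 0
      rw [AlgHom.commutes]
      exact sub_self _
    obtain ⟨h', hh', -⟩ := hu (N.N₁ ⧸ S) q hq
    intro n hn
    have h4 : q n = 0 := by
      rw [← hh' n, show e n = 0 from hn, map_zero]
    exact (Submodule.Quotient.mk_eq_zero S).mp h4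

/-- `R ⊗ A → (R ⧸ I) ⊗ A` is surjective. -/
theorem map_mk_surjective {R : Type u} [CommRing R] [Algebra k R] (I : Ideal R) (A : Type u)
    [CommRing A] [Algebra k A] :
    Function.Surjective (Algebra.TensorProduct.map (Ideal.Quotient.mkₐ k I) (AlgHom.id k A)) :=
  Algebra.TensorProduct.map_surjective (R := k) (S := k) (Ideal.Quotient.mkₐ k I) (AlgHom.id k A)
    (Ideal.Quotient.mkₐ_surjective k I) Function.surjective_id

/-- The kernel of `R ⊗ A → (R ⧸ I) ⊗ A` is square-zero when `I` is. -/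
theorem map_mk_sq_zero {R : Type u} [CommRing R] [Algebra k R] (I : Ideal R) (hI : I ^ 2 = ⊥)
    (A : Type u) [CommRing A] [Algebra k A] (x y : R ⊗[k] A)
    (hx : Algebra.TensorProduct.map (Ideal.Quotient.mkₐ k I) (AlgHom.id k A) x = 0)
    (hy : Algebra.TensorProduct.map (Ideal.Quotient.mkₐ k I) (AlgHom.id k A) y = 0) :
    x * y = 0 := by
  have hker := Algebra.TensorProduct.rTensor_ker (R := k) (S := k) (C := A) (Ideal.Quotient.mkₐ k I)
    (Ideal.Quotient.mkₐ_surjective k I)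
  have hx' : x ∈ RingHom.ker (Algebra.TensorProduct.map (Ideal.Quotient.mkₐ k I)
      (AlgHom.id k A)) := hx
  have hy' : y ∈ RingHom.ker (Algebra.TensorProduct.map (Ideal.Quotient.mkₐ k I)
      (AlgHom.id k A)) := hy
  have hkI : RingHom.ker (Ideal.Quotient.mkₐ k I) = I := by
    ext z
    rw [RingHom.mem_ker]
    exact Ideal.Quotient.eq_zero_iff_mem
  rw [hker, hkI] at hx' hy'
  have h : x * y ∈ (Ideal.map (Algebra.TensorProduct.includeLeft : R →ₐ[k] R ⊗[k] A) I) ^ 2 := by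
    rw [pow_two]
    exact Ideal.mul_mem_mul hx' hy'
  rw [← Ideal.map_pow, hI, Ideal.map_bot] at h
  exact h

theorem ker_le_jacobson_of_sq {B B' : Type u} [CommRing B] [CommRing B'] (ψ : B →+* B')
    (hsq : ∀ x ∈ RingHom.ker ψ, ∀ y ∈ RingHom.ker ψ, x * y = 0) :
    RingHom.ker ψ ≤ Ideal.jacobson ⊥ := by
  intro x hx
  rw [Ideal.jacobson_bot]
  apply nilradical_le_jacobson B
  rw [mem_nilradical]
  exact ⟨2, by rw [pow_two]; exact hsq x hx x hx⟩

/-- **(Lift), line bundles, with the reduction data.** -/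
theorem exists_lineBundle_reduction {R : Type u} [CommRing R] [Algebra k R] (I : Ideal R)
    (hI : I ^ 2 = ⊥) (L₀ : GluedModule (𝒞.chart (R ⧸ I))) (hL₀ : L₀.IsLineBundle) :
    ∃ L : GluedModule (𝒞.chart R), L.IsLineBundle ∧
      ∃ (π₁ : L.N₁ →+ L₀.N₁) (π₂ : L.N₂ →+ L₀.N₂) (π₁₂ : L.N₁₂ →+ L₀.N₁₂),
        (∀ (b : (𝒞.chart R).B₁) (x : L.N₁),
          π₁ (b • x) = (𝒞.chartHom (Ideal.Quotient.mkₐ k I)).ψ₁ b • π₁ x) ∧
        (∀ (b : (𝒞.chart R).B₂) (x : L.N₂),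
          π₂ (b • x) = (𝒞.chartHom (Ideal.Quotient.mkₐ k I)).ψ₂ b • π₂ x) ∧
        (∀ (b : (𝒞.chart R).B₁₂) (x : L.N₁₂),
          π₁₂ (b • x) = (𝒞.chartHom (Ideal.Quotient.mkₐ k I)).ψ₁₂ b • π₁₂ x) ∧
        (∀ x, π₁₂ (L.ι₁ x) = L₀.ι₁ (π₁ x)) ∧ (∀ x, π₁₂ (L.ι₂ x) = L₀.ι₂ (π₂ x)) ∧
        Function.Surjective π₁ ∧ Function.Surjective π₂ ∧
        (∀ x, π₁ x = 0 → x ∈ RingHom.ker (𝒞.chartHom (Ideal.Quotient.mkₐ k I)).ψ₁ •
          (⊤ : Submodule (𝒞.chart R).B₁ L.N₁)) ∧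
        (∀ x, π₂ x = 0 → x ∈ RingHom.ker (𝒞.chartHom (Ideal.Quotient.mkₐ k I)).ψ₂ •
          (⊤ : Submodule (𝒞.chart R).B₂ L.N₂)) := by
  set Ψ := 𝒞.chartHom (Ideal.Quotient.mkₐ k I) with hΨ
  have hs₁ : Function.Surjective Ψ.ψ₁ := map_mk_surjective I 𝒞.A₁
  have hs₂ : Function.Surjective Ψ.ψ₂ := map_mk_surjective I 𝒞.A₂
  have hsq₁ : ∀ x ∈ RingHom.ker Ψ.ψ₁, ∀ y ∈ RingHom.ker Ψ.ψ₁, x * y = 0 :=
    fun x hx y hy => map_mk_sq_zero I hI 𝒞.A₁ x y hx hy
  have hsq₂ : ∀ x ∈ RingHom.ker Ψ.ψ₂, ∀ y ∈ RingHom.ker Ψ.ψ₂, x * y = 0 :=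
    fun x hx y hy => map_mk_sq_zero I hI 𝒞.A₂ x y hx hy
  have hsq₁₂ : ∀ x ∈ RingHom.ker Ψ.ψ₁₂, ∀ y ∈ RingHom.ker Ψ.ψ₁₂, x * y = 0 :=
    fun x hx y hy => map_mk_sq_zero I hI 𝒞.A₁₂ x y hx hy
  obtain ⟨L, hL, π₁, π₂, π₁₂, h1, h2, h12, hc1, hc2, hπ₁s, hπ₂s, -, hk1, hk2, -⟩ :=
    L3050.exists_gluedModule_lift Ψ.ψ₁ Ψ.ψ₂ Ψ.ψ₁₂ Ψ.comm₁ Ψ.comm₂ Ψ.map_f Ψ.map_g hs₁ hs₂ hsq₁ hsq₂
      (ker_le_jacobson_of_sq Ψ.ψ₁₂ hsq₁₂) L₀ hL₀
  exact ⟨L, hL, π₁, π₂, π₁₂, h1, h2, h12, hc1, hc2, hπ₁s, hπ₂s, hk1, hk2⟩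

/-- The reduction data of `exists_lineBundle_reduction` is a base change datum. -/
theorem exists_lineBundle_lift {R : Type u} [CommRing R] [Algebra k R] (I : Ideal R)
    (hI : I ^ 2 = ⊥) (L₀ : GluedModule (𝒞.chart (R ⧸ I))) (hL₀ : L₀.IsLineBundle) :
    ∃ L : GluedModule (𝒞.chart R), L.IsLineBundle ∧
      IsBC (𝒞.chartHom (Ideal.Quotient.mkₐ k I)) L L₀ := by
  obtain ⟨L, hL, π₁, π₂, π₁₂, h1, h2, h12, hc1, hc2, hπ₁s, hπ₂s, hk1, hk2⟩ :=
    exists_lineBundle_reduction 𝒞 I hI L₀ hL₀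
  have hs₁ : Function.Surjective (𝒞.chartHom (Ideal.Quotient.mkₐ k I)).ψ₁ :=
    map_mk_surjective I 𝒞.A₁
  have hs₂ : Function.Surjective (𝒞.chartHom (Ideal.Quotient.mkₐ k I)).ψ₂ :=
    map_mk_surjective I 𝒞.A₂
  exact ⟨L, hL, ⟨{
    j₁ := π₁
    j₂ := π₂
    j₁₂ := π₁₂
    j₁_smul := h1
    j₂_smul := h2
    j₁₂_smul := h12
    comm₁ := hc1
    comm₂ := hc2
    univ₁ := fun Q _ _ h hh => existsUnique_of_reduction
      (𝒞.chartHom (Ideal.Quotient.mkₐ k I)).ψ₁ hs₁ π₁ h1 hπ₁s hk1 Q h hh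
    univ₂ := fun Q _ _ h hh => existsUnique_of_reduction
      (𝒞.chartHom (Ideal.Quotient.mkₐ k I)).ψ₂ hs₂ π₂ h2 hπ₂s hk2 Q h hh }⟩⟩

/-- **(Lift), rigidified line bundles.** -/
theorem exists_rigid_lift {R : Type u} [CommRing R] [Algebra k R] (I : Ideal R)
    (hI : I ^ 2 = ⊥) (L₀ : GluedModule (𝒞.chart (R ⧸ I))) (hL₀ : L₀.IsLineBundle)
    (hr₀ : Rigid 𝒞 L₀) :
    ∃ L : GluedModule (𝒞.chart R), L.IsLineBundle ∧ Rigid 𝒞 L ∧
      IsBC (𝒞.chartHom (Ideal.Quotient.mkₐ k I)) L L₀ := by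
  obtain ⟨L, hL, π₁, π₂, π₁₂, h1, h2, h12, hc1, hc2, hπ₁s, hπ₂s, hk1, hk2⟩ :=
    exists_lineBundle_reduction 𝒞 I hI L₀ hL₀
  have hs₁ : Function.Surjective (𝒞.chartHom (Ideal.Quotient.mkₐ k I)).ψ₁ :=
    map_mk_surjective I 𝒞.A₁
  have hs₂ : Function.Surjective (𝒞.chartHom (Ideal.Quotient.mkₐ k I)).ψ₂ :=
    map_mk_surjective I 𝒞.A₂
  refine ⟨L, hL, ?_, ⟨{
    j₁ := π₁
    j₂ := π₂
    j₁₂ := π₁₂
    j₁_smul := h1
    j₂_smul := h2
    j₁₂_smul := h12
    comm₁ := hc1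
    comm₂ := hc2
    univ₁ := fun Q _ _ h hh => existsUnique_of_reduction
      (𝒞.chartHom (Ideal.Quotient.mkₐ k I)).ψ₁ hs₁ π₁ h1 hπ₁s hk1 Q h hh
    univ₂ := fun Q _ _ h hh => existsUnique_of_reduction
      (𝒞.chartHom (Ideal.Quotient.mkₐ k I)).ψ₂ hs₂ π₂ h2 hπ₂s hk2 Q h hh }⟩⟩
  obtain ⟨e₀, he₀, he₀s, he₀k⟩ := exists_surjective_of_rigid 𝒞 hr₀
  have := hL.inv₁
  have hJ : RingHom.ker (Ideal.Quotient.mk I) ≤ Ideal.jacobson ⊥ := by
    refine ker_le_jacobson_of_sq (Ideal.Quotient.mk I) ?_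
    intro x hx y hy
    rw [Ideal.mk_ker] at hx hy
    have h : x * y ∈ I ^ 2 := by rw [pow_two]; exact Ideal.mul_mem_mul hx hy
    rwa [hI] at h
  obtain ⟨e, he, hes, hek, -⟩ := exists_rigidification_lift
    (𝒞.epsR R : (𝒞.chart R).B₁ →+* R) (epsR_surjective 𝒞 R)
    (𝒞.epsR (R ⧸ I) : (𝒞.chart (R ⧸ I)).B₁ →+* R ⧸ I)
    (𝒞.chartHom (Ideal.Quotient.mkₐ k I)).ψ₁ hs₁
    (Ideal.Quotient.mk I) Ideal.Quotient.mk_surjective hJ
    (fun b => (epsR_chartHom 𝒞 (Ideal.Quotient.mkₐ k I) b).symm)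
    π₁ h1 hπ₁s hk1 e₀ he₀ he₀s he₀k
  exact rigid_of_surjective 𝒞 L e he hes hek

end Curve

end Fermat.Agent.S25.ATLAS.LIFT.H5230
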